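import Mathlib

/-!
# Tame inertia in a Dedekind domain

Let a group `G` act faithfully on a Dedekind domain `R` and let `P` be a nonzero prime.  An element
of the inertia group of `P` of order prime to the residue characteristic which fixes a uniformiser
modulo `P ^ 2` is trivial.  Hence a tame quotient of inertia is cyclic, and an element `φ`
inducing `x ↦ x ^ q` on `R ⧸ P` conjugates it by `g ↦ g ^ q`.
-/

set_option autoImplicit false

open scoped Pointwise

namespace Fermat.Agent.TameInertia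

variable {R G : Type*} [CommRing R] [Group G] [MulSemiringAction G R] {P : Ideal R}

lemma smul_mem_pow {g : G} (hg : g • P = P) (n : ℕ) {x : R} (hx : x ∈ P ^ n) :
    g • x ∈ P ^ n := by
  have h1 : g • (P ^ n) = P ^ n := by
    induction n with
    | zero => simp [Ideal.pointwise_smul_def, Ideal.map_top]
    | succ n ih =>
      rw [pow_succ, Ideal.pointwise_smul_def, Ideal.map_mul, ← Ideal.pointwise_smul_def,
        ← Ideal.pointwise_smul_def, ih (Ideal.pow_le_pow_right n.le_succ hx), hg]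
  have h2 := Ideal.smul_mem_pointwise_smul g x (P ^ n) hx
  rwa [h1] at h2

/-- `g π ≡ π` modulo `P ^ 2` implies `g π ^ n ≡ π ^ n` modulo `P ^ (n + 1)`. -/
lemma smul_pow_sub_mem {g : G} (hg : g • P = P) {π : R} (hπ : π ∈ P)
    (h2 : g • π - π ∈ P ^ 2) (n : ℕ) : g • π ^ n - π ^ n ∈ P ^ (n + 1) := by
  induction n with
  | zero => simp
  | succ n ih =>
    have e : g • π ^ (n + 1) - π ^ (n + 1) =
        (g • π) * (g • π ^ n - π ^ n) + π ^ n * (g • π - π) := by
      rw [pow_succ, smul_mul']; ring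
    rw [e]
    refine add_mem ?_ ?_
    · rw [show n + 1 + 1 = 1 + (n + 1) by omega, pow_add P 1 (n + 1), pow_one]
      refine Ideal.mul_mem_mul ?_ ih
      simpa using smul_mem_pow hg 1 (x := π) (by simpa using hπ)
    · rw [show n + 1 + 1 = n + 2 by omega, pow_add P n 2]
      exact Ideal.mul_mem_mul (Ideal.pow_mem_pow hπ n) h2

variable [IsDedekindDomain R] [P.IsPrime]

lemma notMem_pow_succ_of_notMem_sq {π : R} (hπ2 : π ∉ P ^ 2) (hP : P ≠ ⊥) :
    ∀ n : ℕ, π ^ n ∉ P ^ (n + 1) := by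
  intro n h
  by_cases hπ : π ∈ P
  · obtain ⟨J, hJ⟩ := Ideal.dvd_span_singleton.2 hπ
    have hpow : P ^ (n + 1) ∣ Ideal.span {π} ^ n := by
      rwa [Ideal.span_singleton_pow, Ideal.dvd_span_singleton]
    rw [hJ, mul_pow, pow_succ] at hpow
    obtain ⟨J', hJ'⟩ := (Ideal.prime_of_isPrime hP inferInstance).dvd_of_dvd_pow
      ((mul_dvd_mul_iff_left (pow_ne_zero n hP)).1 hpow)
    refine hπ2 (Ideal.dvd_span_singleton.1 ?_)
    rw [hJ, hJ', pow_two, ← mul_assoc]
    exact dvd_mul_right _ _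
  · exact hπ (Ideal.IsPrime.mem_of_pow_mem inferInstance n (Ideal.pow_le_self n.succ_ne_zero h))

/-- An element of inertia of order prime to the residue characteristic which fixes a uniformiser
modulo `P ^ 2` is trivial. -/
theorem eq_one_of_smul_uniformiser [FaithfulSMul G R] (hP : P ≠ ⊥) {π : R} (hπ : π ∈ P)
    (hπ2 : π ∉ P ^ 2) {g : G} (hg : g ∈ P.inertia G) {e : ℕ} (he : g ^ e = 1)
    (he' : (e : R) ∉ P) (h2 : g • π - π ∈ P ^ 2) : g = 1 := by
  have hgP : g • P = P := Ideal.inertia_le_stabilizer P hg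
  have hg' : ∀ x : R, g • x - x ∈ P := hg
  have step : ∀ n : ℕ, (∀ x : R, g • x - x ∈ P ^ n) → 1 ≤ n →
      ∀ x : R, g • x - x ∈ P ^ (n + 1) := by
    intro n hn h1
    have fix' : ∀ d ∈ P ^ n, g • d - d ∈ P ^ (n + 1) := by
      intro d hd
      obtain ⟨c, r, hr, rfl⟩ := Ideal.exists_mul_add_mem_pow_succ hP (π ^ n) d
        (Ideal.pow_mem_pow hπ n) (notMem_pow_succ_of_notMem_sq hπ2 hP n) hd
      have e1 : g • (π ^ n * c + r) - (π ^ n * c + r) =
          (g • π ^ n - π ^ n) * (g • c) + π ^ n * (g • c - c) + (g • r - r) := by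
        rw [smul_add, smul_mul']; ring
      rw [e1]
      refine add_mem (add_mem ?_ ?_) (sub_mem (smul_mem_pow hgP _ hr) hr)
      · exact Ideal.mul_mem_right _ _ (smul_pow_sub_mem hgP hπ h2 n)
      · rw [pow_succ P n]
        exact Ideal.mul_mem_mul (Ideal.pow_mem_pow hπ n) (hg' c)
    intro x
    have hpow : ∀ j : ℕ, g ^ j • x - x - (j : R) * (g • x - x) ∈ P ^ (n + 1) := by
      intro j
      induction j with
      | zero => simp
      | succ j ih =>
        have hd : g ^ j • x - x ∈ P ^ n := by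
          have : g ^ j • x - x =
              (g ^ j • x - x - (j : R) * (g • x - x)) + (j : R) * (g • x - x) := by ring
          rw [this]
          exact add_mem (Ideal.pow_le_pow_right n.le_succ ih) (Ideal.mul_mem_left _ _ (hn x))
        have e1 : g ^ (j + 1) • x - x - ((j + 1 : ℕ) : R) * (g • x - x) =
            (g • (g ^ j • x - x) - (g ^ j • x - x)) +
              (g ^ j • x - x - (j : R) * (g • x - x)) := by
          rw [pow_succ', mul_smul, smul_sub]; push_cast; ring
        rw [e1]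
        exact add_mem (fix' _ hd) ih
    have h3 := hpow e
    rw [he, one_smul, sub_self, zero_sub, neg_mem_iff] at h3
    exact (Ideal.IsPrime.mul_mem_pow P h3).resolve_left he'
  have hall : ∀ n : ℕ, ∀ x : R, g • x - x ∈ P ^ (n + 1) := by
    intro n
    induction n with
    | zero => simpa using hg'
    | succ n ih => exact step (n + 1) ih (by omega)
  refine FaithfulSMul.eq_of_smul_eq_smul (α := R) fun x => ?_
  rw [one_smul, ← sub_eq_zero]
  have hbot := Ideal.iInf_pow_eq_bot_of_isDomain P (Ideal.IsPrime.ne_top inferInstance)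
  rw [← Ideal.mem_bot, ← hbot, Ideal.mem_iInf]
  intro n
  exact Ideal.pow_le_pow_right n.le_succ (hall n x)

/-- The tame character: `g π ≡ χ(g) π` modulo `P ^ 2`. -/
theorem exists_tameChar (hP : P ≠ ⊥) {π : R} (hπ : π ∈ P) (hπ2 : π ∉ P ^ 2) :
    ∃ χ : P.inertia G →* R ⧸ P, ∀ (g : P.inertia G) (a : R),
      (g : G) • π - a * π ∈ P ^ 2 ↔ χ g = Ideal.Quotient.mk P a := by
  have hex : ∀ g : P.inertia G, ∃ a : R, (g : G) • π - a * π ∈ P ^ 2 := by
    intro g
    obtain ⟨d, r, hr, h⟩ := Ideal.exists_mul_add_mem_pow_succ hP π ((g : G) • π)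
      (i := 1) (by simpa using hπ) hπ2
      (smul_mem_pow (Ideal.inertia_le_stabilizer P g.2) 1 (by simpa using hπ))
    exact ⟨d, by rw [← h]; simpa [mul_comm] using hr⟩
  choose a ha using hex
  have uniq : ∀ (g : P.inertia G) (b : R),
      (g : G) • π - b * π ∈ P ^ 2 ↔ Ideal.Quotient.mk P (a g) = Ideal.Quotient.mk P b := by
    intro g b
    rw [Ideal.Quotient.eq]
    constructor
    · intro hb
      refine Ideal.mem_prime_of_mul_mem_pow (i := 1) hP (a := π) hπ2 ?_
      have := sub_mem hb (ha g)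
      convert this using 1
      ring
    · intro h
      have h' : (a g - b) * π ∈ P ^ 2 := pow_two P ▸ Ideal.mul_mem_mul h hπ
      have := add_mem (ha g) h'
      convert this using 1
      ring
  refine ⟨{ toFun := fun g => Ideal.Quotient.mk P (a g), map_one' := ?_, map_mul' := ?_ },
    fun g b => uniq g b⟩
  · refine ((uniq 1 1).1 ?_).trans (map_one _)
    simp
  · intro g h
    rw [← map_mul]
    refine (uniq (g * h) _).1 ?_
    have hgP := Ideal.inertia_le_stabilizer P g.2
    have h1 : (g : G) • ((h : G) • π - a h * π) ∈ P ^ 2 := smul_mem_pow hgP 2 (ha h)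
    have h2 : ((g : G) • a h - a h) * ((g : G) • π) ∈ P ^ 2 :=
      pow_two P ▸ Ideal.mul_mem_mul (g.2 (a h))
        (by simpa using smul_mem_pow hgP 1 (x := π) (by simpa using hπ))
    have h3 := Ideal.mul_mem_left _ (a h) (ha g)
    have e : ((g * h : P.inertia G) : G) • π - a g * a h * π =
        (g : G) • ((h : G) • π - a h * π) + ((g : G) • a h - a h) * ((g : G) • π)
          + a h * ((g : G) • π - a g * π) := by
      rw [Subgroup.coe_mul, mul_smul, smul_sub, smul_mul']; ring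
    rw [e]
    exact add_mem (add_mem h1 h2) h3

/-- An element inducing `x ↦ x ^ q` on the residue ring raises the tame character to the
`q`-th power. -/
theorem tameChar_conj (hP : P ≠ ⊥) {π : R} (hπ : π ∈ P) (hπ2 : π ∉ P ^ 2)
    {χ : P.inertia G →* R ⧸ P} (hχ : ∀ (g : P.inertia G) (a : R),
      (g : G) • π - a * π ∈ P ^ 2 ↔ χ g = Ideal.Quotient.mk P a)
    {φ : G} {q : ℕ} (hφP : φ • P = P) (hφ : ∀ x : R, φ • x - x ^ q ∈ P) {g : G}
    (hg : g ∈ P.inertia G) (hg' : φ * g * φ⁻¹ ∈ P.inertia G) :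
    χ ⟨φ * g * φ⁻¹, hg'⟩ = χ ⟨g, hg⟩ ^ q := by
  obtain ⟨a, ha⟩ := Ideal.Quotient.mk_surjective (χ ⟨g, hg⟩)
  obtain ⟨a', ha'⟩ := Ideal.Quotient.mk_surjective (χ ⟨φ * g * φ⁻¹, hg'⟩)
  rw [← ha, ← ha', ← map_pow, Ideal.Quotient.eq]
  have h1 : g • π - a * π ∈ P ^ 2 := (hχ _ a).2 ha.symm
  have h2 : (φ * g * φ⁻¹) • π - a' * π ∈ P ^ 2 := (hχ _ a').2 ha'.symm
  set g' := φ * g * φ⁻¹ with hg'def
  have hg'I : g' ∈ P.inertia G := hg'
  have hg'P := Ideal.inertia_le_stabilizer P hg'I
  set π' := φ • π with hπ'def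
  have hπ' : π' ∈ P := by simpa using smul_mem_pow hφP 1 (x := π) (by simpa using hπ)
  have hπ'2 : π' ∉ P ^ 2 := by
    intro h
    refine hπ2 ?_
    have hinv : φ⁻¹ • P = P := by rw [inv_smul_eq_iff, hφP]
    have := smul_mem_pow hinv 2 h
    rwa [inv_smul_smul] at this
  obtain ⟨c, r, hr, hc⟩ := Ideal.exists_mul_add_mem_pow_succ hP π π' (i := 1)
    (by simpa using hπ) hπ2 (by simpa using hπ')
  -- the character of `g'` computed on `π'`
  have e1 : g' • π' - a' * π' ∈ P ^ 2 := by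
    have e : g' • π' - a' * π' = (g' • c - c) * (g' • π) + c * (g' • π - a' * π)
        + (g' • r - a' * r) := by
      rw [← hc, smul_add, smul_mul']; ring
    rw [e]
    refine add_mem (add_mem ?_ (Ideal.mul_mem_left _ _ h2))
      (sub_mem (smul_mem_pow hg'P 2 hr) (Ideal.mul_mem_left _ _ hr))
    exact pow_two P ▸ Ideal.mul_mem_mul (hg'I c)
      (by simpa using smul_mem_pow hg'P 1 (x := π) (by simpa using hπ))
  have e2 : g' • π' - a ^ q * π' ∈ P ^ 2 := by
    have e : g' • π' - a ^ q * π' = φ • (g • π - a * π) + (φ • a - a ^ q) * π' := by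
      rw [hπ'def, hg'def, smul_smul, inv_mul_cancel_right, mul_smul, smul_sub, smul_mul']
      ring
    rw [e]
    exact add_mem (smul_mem_pow hφP 2 h1) (pow_two P ▸ Ideal.mul_mem_mul (hφ a) hπ')
  refine Ideal.mem_prime_of_mul_mem_pow (i := 1) hP (a := π') hπ'2 ?_
  have := sub_mem e2 e1
  convert this using 1
  ring

variable [FaithfulSMul G R] [Finite G]

/-- **Tame inertia.** A homomorphism which is tame on a group of inertia elements has cyclic
image there, and an element inducing `x ↦ x ^ q` conjugates that image by the `q`-th power. -/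
theorem tame_inertia_hom (hP : P ≠ ⊥) {q : ℕ} (hq : q.Prime) (hqP : (q : R) ∈ P)
    {D H : Type*} [Group D] [Group H] (r : D →* G) (f : D →* H) (hker : ∀ d, r d = 1 → f d = 1)
    (I : Subgroup D) (hI : ∀ d ∈ I, r d ∈ P.inertia G) {e : ℕ} (he : e.Coprime q)
    (hexp : ∀ d ∈ I, f d ^ e = 1) :
    (∃ d₀ ∈ I, ∀ d ∈ I, ∃ n : ℕ, f d = f d₀ ^ n) ∧
      ∀ φ : D, r φ • P = P → (∀ x : R, r φ • x - x ^ q ∈ P) →
        ∀ d ∈ I, φ * d * φ⁻¹ ∈ I → f φ * f d * (f φ)⁻¹ = f d ^ q := by
  obtain ⟨π, hπ, hπ2⟩ :=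
    Ideal.exists_mem_pow_notMem_pow_succ P hP (Ideal.IsPrime.ne_top inferInstance) 1
  rw [pow_one] at hπ
  obtain ⟨χ, hχ⟩ := exists_tameChar (G := G) hP hπ hπ2
  let rI : I →* P.inertia G := (r.comp I.subtype).codRestrict _ fun d => hI d d.2
  let c : I →* R ⧸ P := χ.comp rI
  -- the tame character detects `f`
  have key : ∀ d : I, c d = 1 → f d = 1 := by
    intro d hd
    obtain ⟨a, m, hm, hN⟩ := Nat.exists_eq_pow_mul_and_not_dvd (orderOf_pos (rI d)).ne' q hq.ne_one
    have hd' : c (d ^ q ^ a) = 1 := by rw [map_pow, hd, one_pow]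
    have h1 : r (((d ^ q ^ a : I)) : D) = 1 := by
      refine eq_one_of_smul_uniformiser hP hπ hπ2 (rI (d ^ q ^ a)).2 (e := m) ?_ ?_ ?_
      · have h2 : rI d ^ (q ^ a * m) = 1 := hN ▸ pow_orderOf_eq_one (rI d)
        rw [pow_mul, ← map_pow] at h2
        exact congrArg Subtype.val h2
      · intro h
        apply Ideal.IsPrime.ne_top (I := P) inferInstance
        obtain ⟨u, v, huv⟩ := Nat.isCoprime_iff_coprime.2 ((hq.coprime_iff_not_dvd).2 hm).symm
        rw [Ideal.eq_top_iff_one, ← Int.cast_one, ← huv]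
        push_cast
        exact add_mem (Ideal.mul_mem_left _ _ h) (Ideal.mul_mem_left _ _ hqP)
      · simpa [rI] using (hχ (rI (d ^ q ^ a)) 1).2 (hd'.trans (map_one _).symm)
    have h3 : f d ^ q ^ a = 1 := by simpa using hker _ h1
    have h4 := pow_gcd_eq_one.2 ⟨h3, hexp d d.2⟩
    rwa [(Nat.Coprime.pow_left a he.symm).gcd_eq_one, pow_one] at h4
  have eq_of : ∀ x y : I, c x = c y → f x = f y := by
    intro x y h
    have hmul : ∀ u v : I, c (u * v) = c u * c v := fun u v => map_mul c u v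
    have h1 : c (x * y⁻¹) = 1 := by rw [hmul, h, ← hmul, mul_inv_cancel, map_one]
    have h2 := key _ h1
    simpa [mul_inv_eq_one] using h2
  constructor
  · -- a generator of the image of the tame character
    let J : Subgroup (R ⧸ P)ˣ := c.toHomUnits.range
    have hfin : Finite J :=
      Finite.of_surjective (fun g : rI.range => (⟨χ.toHomUnits g.1, by
        obtain ⟨_, d, rfl⟩ := g; exact ⟨d, Units.ext rfl⟩⟩ : J)) (by
        rintro ⟨_, d, rfl⟩
        exact ⟨⟨rI d, d, rfl⟩, Subtype.ext (Units.ext rfl)⟩)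
    have hcyc : IsCyclic J :=
      isCyclic_of_injective_ringHom ((Units.coeHom (R ⧸ P)).comp J.subtype)
        (Units.val_injective.comp Subtype.coe_injective)
    obtain ⟨⟨_, d₀, rfl⟩, hd₀⟩ := hcyc.exists_generator
    refine ⟨d₀, d₀.2, fun d hd => ?_⟩
    obtain ⟨n, hn⟩ := mem_powers_iff_mem_zpowers.2 (hd₀ ⟨c.toHomUnits ⟨d, hd⟩, _, rfl⟩)
    refine ⟨n, ?_⟩
    have h1 : c (d₀ ^ n) = c ⟨d, hd⟩ := by
      have h2 := congrArg (fun u : J => ((u : (R ⧸ P)ˣ) : R ⧸ P)) hn
      simpa using h2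
    simpa using (eq_of _ _ h1).symm
  · intro φ hφP hφ d hd hd'
    have h := tameChar_conj hP hπ hπ2 hχ hφP hφ (hI d hd) (g := r d)
      (by simpa using hI _ hd')
    have h1 : c ⟨φ * d * φ⁻¹, hd'⟩ = c (⟨d, hd⟩ ^ q) := by
      rw [map_pow]
      refine Eq.trans ?_ h
      exact congrArg χ (Subtype.ext (by simp [rI]))
    simpa using eq_of _ _ h1

end Fermat.Agent.TameInertia
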