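import Mathlib
import Fermat.Prelude.Def_FLTPrelim_Ramification
import Fermat.Prelude.Def_EllipticCurve_FrobeniusTrace
import Fermat.Agent.FreyReducible.InertiaLift
import Fermat.Agent.TameInertia.Dedekind

/-!
# Tame inertia of a Galois representation

If a representation of `G_ℚ` with open kernel maps the inertia group at `A` (over `q`) to a group
of exponent prime to `q`, then the image of inertia is cyclic and a Frobenius element conjugates
it by `g ↦ g ^ q`.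
-/

set_option autoImplicit false

open NumberField
open scoped Pointwise NumberField

noncomputable section

namespace Fermat.Agent.TameInertia

open Fermat.Agent.FreyReducible

local notation "Ω" => AlgebraicClosure ℚ
local notation "G_ℚ" => (AlgebraicClosure ℚ) ≃ₐ[ℚ] (AlgebraicClosure ℚ)

local instance isAlgebraicQbar_ti : Algebra.IsAlgebraic ℚ (AlgebraicClosure ℚ) :=
  AlgebraicClosure.isAlgebraic ℚ
local instance isAlgClosureQbar_ti : IsAlgClosure ℚ (AlgebraicClosure ℚ) :=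
  ⟨inferInstance, inferInstance⟩
local instance isGaloisQbar_ti : IsGalois ℚ (AlgebraicClosure ℚ) :=
  have : Normal ℚ (AlgebraicClosure ℚ) := IsAlgClosure.normal ℚ (AlgebraicClosure ℚ)
  have : Algebra.IsSeparable ℚ (AlgebraicClosure ℚ) :=
    Algebra.IsAlgebraic.isSeparable_of_perfectField
  IsGalois.mk

lemma inertia_normal_in_decomposition {A : ValuationSubring Ω} {φ σ : G_ℚ}
    (hφ : φ ∈ A.decompositionSubgroup ℚ) (hσ : σ ∈ A.inertiaSubgroupIn ℚ) :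
    φ * σ * φ⁻¹ ∈ A.inertiaSubgroupIn ℚ := by
  rw [Fermat.Agent.FreyReducible.mem_inertiaSubgroupIn_iff] at hσ ⊢
  refine ⟨mul_mem (mul_mem hφ hσ.1) (inv_mem hφ), fun x hx => ?_⟩
  have h1 : φ⁻¹ x ∈ A := (apply_mem_of_mem_decompositionSubgroup A (inv_mem hφ)).2 hx
  have h2 := hσ.2 _ h1
  have h3 : (φ * σ * φ⁻¹) x - x = φ (σ (φ⁻¹ x) - φ⁻¹ x) := by
    rw [map_sub, ← AlgEquiv.mul_apply φ φ⁻¹ x, mul_inv_cancel, AlgEquiv.one_apply]
    rfl
  rw [h3]
  rw [ValuationSubring.mem_nonunits_iff_or] at h2 ⊢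
  refine h2.imp (fun h0 => by rw [h0, map_zero]) fun h4 h5 => h4 ?_
  rwa [← map_inv₀, apply_mem_of_mem_decompositionSubgroup A hφ] at h5

lemma frobenius_sub_pow_mem {A : ValuationSubring Ω} {φ : G_ℚ} {q : ℕ}
    (hφ : A.IsFrobeniusAt φ q) {z : Ω} (hz : z ∈ A) : φ z - z ^ q ∈ A.nonunits := by
  obtain ⟨hd, h⟩ := hφ
  have h2 := h (IsLocalRing.residue A ⟨z, hz⟩)
  rw [← IsLocalRing.ResidueField.residue_smul, ← map_pow, ← sub_eq_zero, ← map_sub,
    IsLocalRing.residue_eq_zero_iff, ← ValuationSubring.coe_mem_nonunits_iff] at h2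
  exact h2

variable {G : Type*} [Group G] {A : ValuationSubring Ω} {q e : ℕ}

/-- **Tame inertia**, for a representation of a group mapping to `G_ℚ` (for instance a
decomposition group). -/
theorem local_tame_inertia {D : Type*} [Group D] (r₀ : D →* G_ℚ) {ρ : D →* G}
    (hopen : ∃ F₀ : IntermediateField ℚ Ω, FiniteDimensional ℚ F₀ ∧
      F₀.fixingSubgroup.comap r₀ ≤ ρ.ker)
    (hq : q.Prime) (hA : A.LiesOverPrime q) (he : e.Coprime q)
    (hexp : ∀ d, r₀ d ∈ A.inertiaSubgroupIn ℚ → ρ d ^ e = 1) :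
    (∃ d₀, r₀ d₀ ∈ A.inertiaSubgroupIn ℚ ∧
      ∀ d, r₀ d ∈ A.inertiaSubgroupIn ℚ → ∃ n : ℕ, ρ d = ρ d₀ ^ n) ∧
      ∀ φ, A.IsFrobeniusAt (r₀ φ) q → ∀ d, r₀ d ∈ A.inertiaSubgroupIn ℚ →
        ρ φ * ρ d * (ρ φ)⁻¹ = ρ d ^ q := by
  obtain ⟨F₀, hF₀, hle⟩ := hopen
  have := hF₀
  let F := IntermediateField.normalClosure ℚ F₀ Ω
  have : Normal ℚ F := normalClosure.normal ℚ F₀ Ω
  have : IsGalois ℚ F := IsGalois.mk
  have : NumberField F := { to_charZero := inferInstance, to_finiteDimensional := inferInstance }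
  let r : G_ℚ →* (F ≃ₐ[ℚ] F) := AlgEquiv.restrictNormalHom F
  have hr : ∀ (σ : G_ℚ) (x : F), ((r σ x : F) : Ω) = σ (x : Ω) := fun σ x =>
    AlgEquiv.restrictNormal_commutes σ F x
  have hker : ∀ d : D, r (r₀ d) = 1 → ρ d = 1 := by
    intro d h
    refine hle (?_ : r₀ d ∈ F₀.fixingSubgroup)
    rw [IntermediateField.mem_fixingSubgroup_iff]
    intro x hx
    rw [← hr (r₀ d) ⟨x, F₀.le_normalClosure hx⟩, h]
    rfl
  let P : Ideal (𝓞 F) := (placeIdeal A).under (𝓞 F)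
  have hmem : ∀ b : 𝓞 F, b ∈ P ↔ ((b : F) : Ω) ∈ A.nonunits := fun b => by
    rw [Ideal.mem_comap, mem_placeIdeal]; rfl
  have hqP : (q : 𝓞 F) ∈ P := by
    rw [hmem, show (((q : 𝓞 F) : F) : Ω) = (q : Ω) by push_cast; rfl]
    exact hA
  have hP : P ≠ ⊥ := by
    intro h
    rw [h, Ideal.mem_bot] at hqP
    exact hq.ne_zero (by exact_mod_cast hqP)
  have hint : ∀ b : 𝓞 F, ((b : F) : Ω) ∈ A := fun b =>
    mem_of_isIntegral_int A (b.isIntegral_coe.map (F.val.restrictScalars ℤ))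
  let I : Subgroup D := (A.inertiaSubgroupIn ℚ).comap r₀
  have hI : ∀ d ∈ I, (r.comp r₀) d ∈ P.inertia (F ≃ₐ[ℚ] F) := by
    intro d hd b
    show r (r₀ d) • b - b ∈ P
    rw [hmem]
    have := ((Fermat.Agent.FreyReducible.mem_inertiaSubgroupIn_iff A (r₀ d)).1 hd).2 _ (hint b)
    rw [← hr (r₀ d) (b : F)] at this
    exact this
  have hgal : IsGaloisGroup (F ≃ₐ[ℚ] F) ℤ (𝓞 F) :=
    IsGaloisGroup.of_isFractionRing (F ≃ₐ[ℚ] F) ℤ (𝓞 F) ℚ F
  have : FaithfulSMul (F ≃ₐ[ℚ] F) (𝓞 F) := hgal.faithful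
  obtain ⟨hgen, hconj⟩ := tame_inertia_hom hP hq hqP (r.comp r₀) ρ hker I hI he hexp
  refine ⟨hgen, fun φ hφ d hd => ?_⟩
  have hd' := hφ.mem_decompositionSubgroup
  have hstab : r (r₀ φ) • P = P := by
    ext b
    rw [Ideal.mem_pointwise_smul_iff_inv_smul_mem, hmem, hmem, ← map_inv]
    have hc : ((((r (r₀ φ)⁻¹ • b : 𝓞 F)) : F) : Ω) = (r₀ φ)⁻¹ ((b : F) : Ω) :=
      hr (r₀ φ)⁻¹ (b : F)
    rw [hc]
    constructor
    · intro h
      rw [ValuationSubring.mem_nonunits_iff_or] at h ⊢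
      refine h.imp (fun h0 => by simpa using congrArg (r₀ φ) h0) fun h1 h2 => h1 ?_
      rw [← map_inv₀, apply_mem_of_mem_decompositionSubgroup A (inv_mem hd')]
      exact h2
    · intro h
      rw [ValuationSubring.mem_nonunits_iff_or] at h ⊢
      refine h.imp (fun h0 => by rw [h0, map_zero]) fun h1 h2 => h1 ?_
      rwa [← map_inv₀, apply_mem_of_mem_decompositionSubgroup A (inv_mem hd')] at h2
  have hfrob : ∀ b : 𝓞 F, r (r₀ φ) • b - b ^ q ∈ P := by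
    intro b
    rw [hmem]
    have := frobenius_sub_pow_mem hφ (hint b)
    rw [← hr (r₀ φ) (b : F)] at this
    exact this
  refine hconj φ hstab hfrob d hd ?_
  show r₀ (φ * d * φ⁻¹) ∈ A.inertiaSubgroupIn ℚ
  rw [map_mul, map_mul, map_inv]
  exact inertia_normal_in_decomposition hd' hd

/-- **Tame inertia** of a representation of `G_ℚ`. -/
theorem map_tame_inertia {ρ : G_ℚ →* G}
    (hopen : ∃ F₀ : IntermediateField ℚ Ω, FiniteDimensional ℚ F₀ ∧ F₀.fixingSubgroup ≤ ρ.ker)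
    (hq : q.Prime) (hA : A.LiesOverPrime q) (he : e.Coprime q)
    (hexp : ∀ σ ∈ A.inertiaSubgroupIn ℚ, ρ σ ^ e = 1) :
    (∃ σ₀ ∈ A.inertiaSubgroupIn ℚ, ∀ σ ∈ A.inertiaSubgroupIn ℚ, ∃ n : ℕ, ρ σ = ρ σ₀ ^ n) ∧
      ∀ φ : G_ℚ, A.IsFrobeniusAt φ q → ∀ σ ∈ A.inertiaSubgroupIn ℚ,
        ρ φ * ρ σ * (ρ φ)⁻¹ = ρ σ ^ q := by
  obtain ⟨F₀, hF₀, hle⟩ := hopen
  exact local_tame_inertia (MonoidHom.id _) ⟨F₀, hF₀, hle⟩ hq hA he hexp

end Fermat.Agent.TameInertia
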