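import Mathlib
import Fermat.Agent.TameInertia.Qbar
import Fermat.Agent.BigImage.RootsOfUnity

/-!
# The decomposition group is inertia times the powers of Frobenius, at every finite level
-/

set_option autoImplicit false

open NumberField
open scoped Pointwise NumberField

noncomputable section

namespace Fermat.Agent.TameInertia

open Fermat.Agent.FreyReducible Fermat.Agent.MultRed

local notation "Ω" => AlgebraicClosure ℚ
local notation "G_ℚ" => (AlgebraicClosure ℚ) ≃ₐ[ℚ] (AlgebraicClosure ℚ)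

local instance isAlgebraicQbar_tf : Algebra.IsAlgebraic ℚ (AlgebraicClosure ℚ) :=
  AlgebraicClosure.isAlgebraic ℚ
local instance isAlgClosureQbar_tf : IsAlgClosure ℚ (AlgebraicClosure ℚ) :=
  ⟨inferInstance, inferInstance⟩
local instance isGaloisQbar_tf : IsGalois ℚ (AlgebraicClosure ℚ) :=
  have : Normal ℚ (AlgebraicClosure ℚ) := IsAlgClosure.normal ℚ (AlgebraicClosure ℚ)
  have : Algebra.IsSeparable ℚ (AlgebraicClosure ℚ) :=
    Algebra.IsAlgebraic.isSeparable_of_perfectField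
  IsGalois.mk

variable {A : ValuationSubring Ω} {q : ℕ}

/-- Reduction is injective on roots of unity of order prime to `q`. -/
theorem root_eq_of_close (hq : q.Prime) (hA : A.LiesOverPrime q) {N : ℕ} (hN : ¬ q ∣ N)
    {μ ν : Ω} (hμ : μ ^ N = 1) (hν : ν ^ N = 1) (h : μ - ν ∈ A.nonunits) : μ = ν := by
  have hN0 : N ≠ 0 := fun h0 => hN (h0 ▸ dvd_zero q)
  have hνv : A.valuation ν = 1 :=
    (pow_eq_one_iff_of_nonneg zero_le hN0).1 (by rw [← map_pow, hν, map_one])
  have hν0 : ν ≠ 0 := fun h0 => by rw [h0, map_zero] at hνv; exact zero_ne_one hνv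
  set η := μ / ν with hη
  have hηN : η ^ N = 1 := by rw [hη, div_pow, hμ, hν, div_one]
  have hsmall : A.valuation (η - 1) < 1 := by
    rw [hη, div_sub_one hν0, map_div₀, hνv, div_one]
    exact (ValuationSubring.mem_nonunits_iff A).1 h
  have hηv : A.valuation η = 1 :=
    (pow_eq_one_iff_of_nonneg zero_le hN0).1 (by rw [← map_pow, hηN, map_one])
  by_contra hne
  have hη1 : η - 1 ≠ 0 := sub_ne_zero.2 fun h1 => hne ((div_eq_one_iff_eq hν0).1 h1)
  have hsum : ∑ j ∈ Finset.range N, η ^ j = 0 := by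
    have := geom_sum_mul η N
    rw [hηN, sub_self, mul_eq_zero] at this
    exact this.resolve_right hη1
  have hdiff : A.valuation (∑ j ∈ Finset.range N, (η ^ j - 1)) < 1 := by
    refine A.valuation.map_sum_lt one_ne_zero fun j _ => ?_
    rw [← geom_sum_mul η j, map_mul]
    have h1 : A.valuation (∑ i ∈ Finset.range j, η ^ i) ≤ 1 :=
      A.valuation.map_sum_le fun i _ => by rw [map_pow, hηv, one_pow]
    exact lt_of_le_of_lt (mul_le_of_le_one_left zero_le h1) hsmall
  rw [Finset.sum_sub_distrib, hsum, Finset.sum_const, Finset.card_range, zero_sub,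
    Valuation.map_neg, nsmul_one, vnat_eq_one hq hA hN] at hdiff
  exact lt_irrefl _ hdiff

/-- Frobenius raises the roots of unity of order prime to `q` to the `q`-th power. -/
theorem frobenius_root_of_unity (hq : q.Prime) (hA : A.LiesOverPrime q) {φ : G_ℚ}
    (hφ : A.IsFrobeniusAt φ q) {N : ℕ} (hN : ¬ q ∣ N) {μ : Ω} (hμ : μ ^ N = 1) : φ μ = μ ^ q := by
  have hN0 : N ≠ 0 := fun h0 => hN (h0 ▸ dvd_zero q)
  have hmem : μ ∈ A := (A.valuation_le_one_iff μ).1
    ((pow_eq_one_iff_of_nonneg zero_le hN0).1 (by rw [← map_pow, hμ, map_one])).le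
  refine root_eq_of_close hq hA hN ?_ ?_ (frobenius_sub_pow_mem hφ hmem)
  · rw [← map_pow, hμ, map_one]
  · rw [← pow_mul, mul_comm, pow_mul, hμ, one_pow]

theorem frobenius_pow_root_of_unity (hq : q.Prime) (hA : A.LiesOverPrime q) {φ : G_ℚ}
    (hφ : A.IsFrobeniusAt φ q) {N : ℕ} (hN : ¬ q ∣ N) {μ : Ω} (hμ : μ ^ N = 1) (n : ℕ) :
    (φ ^ n) μ = μ ^ q ^ n := by
  induction n with
  | zero => simp
  | succ n ih =>
    rw [pow_succ', AlgEquiv.mul_apply, ih, map_pow, frobenius_root_of_unity hq hA hφ hN hμ,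
      ← pow_mul, pow_succ' q n]

/-- A ring endomorphism of a finite field of characteristic `q` is a power of Frobenius. -/
theorem exists_eq_pow_char {k : Type*} [Field k] [Finite k] (hq : q.Prime) [CharP k q]
    (f : k →+* k) : ∃ n : ℕ, ∀ x, f x = x ^ q ^ n := by
  have : Fact q.Prime := ⟨hq⟩
  let _ : Algebra (ZMod q) k := ZMod.algebra k q
  let f' : k →ₐ[ZMod q] k :=
    AlgHom.mk f fun r => RingHom.congr_fun
      (RingHom.ext_zmod (f.comp (algebraMap (ZMod q) k)) (algebraMap (ZMod q) k)) r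
  obtain ⟨n, hn⟩ := (FiniteField.bijective_frobeniusAlgHom_pow (ZMod q) k).2 f'
  refine ⟨n, fun x => ?_⟩
  have h := DFunLike.congr_fun hn x
  simp only [AlgHom.coe_pow, FiniteField.coe_frobeniusAlgHom, pow_iterate, ZMod.card] at h
  exact h.symm

/-- At every finite level the decomposition group is generated by inertia and Frobenius. -/
theorem exists_eq_frobenius_pow_mul (hq : q.Prime) (hA : A.LiesOverPrime q) {φ : G_ℚ}
    (hφ : A.IsFrobeniusAt φ q) {g : G_ℚ} (hg : g ∈ A.decompositionSubgroup ℚ)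
    (F₀ : IntermediateField ℚ Ω) [FiniteDimensional ℚ F₀] :
    ∃ n : ℕ, ∃ σ ∈ A.inertiaSubgroupIn ℚ, (φ ^ n * σ)⁻¹ * g ∈ F₀.fixingSubgroup := by
  let F := IntermediateField.normalClosure ℚ F₀ Ω
  have : Normal ℚ F := normalClosure.normal ℚ F₀ Ω
  have : IsGalois ℚ F := IsGalois.mk
  have : NumberField F := { to_charZero := inferInstance, to_finiteDimensional := inferInstance }
  let r : G_ℚ →* (F ≃ₐ[ℚ] F) := AlgEquiv.restrictNormalHom F
  have hr : ∀ (σ : G_ℚ) (x : F), ((r σ x : F) : Ω) = σ (x : Ω) := fun σ x =>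
    AlgEquiv.restrictNormal_commutes σ F x
  let P : Ideal (𝓞 F) := (placeIdeal A).under (𝓞 F)
  have hmem : ∀ b : 𝓞 F, b ∈ P ↔ ((b : F) : Ω) ∈ A.nonunits := fun b => by
    rw [Ideal.mem_comap, mem_placeIdeal]; rfl
  have hqP : (q : 𝓞 F) ∈ P := by
    rw [hmem, show (((q : 𝓞 F) : F) : Ω) = (q : Ω) by push_cast; rfl]
    exact hA
  have hP : P ≠ ⊥ := by
    intro h
    rw [h, Ideal.mem_bot] at hqP
    exact hq.ne_zero (by exact_mod_cast hqP)
  have hint : ∀ b : 𝓞 F, ((b : F) : Ω) ∈ A := fun b =>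
    mem_of_isIntegral_int A (b.isIntegral_coe.map (F.val.restrictScalars ℤ))
  have hstable : ∀ (h : G_ℚ), h ∈ A.decompositionSubgroup ℚ → ∀ b ∈ P, r h • b ∈ P := by
    intro h hh b hb
    rw [hmem] at hb ⊢
    show ((r h (b : F) : F) : Ω) ∈ A.nonunits
    rw [hr, ValuationSubring.mem_nonunits_iff, decomp_isometry hh]
    exact (ValuationSubring.mem_nonunits_iff A).1 hb
  -- the automorphism of the finite residue field
  have : P.IsMaximal := Ideal.IsPrime.isMaximal inferInstance hP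
  let _ : Field (𝓞 F ⧸ P) := Ideal.Quotient.field P
  have : Finite (𝓞 F ⧸ P) := Ideal.finiteQuotientOfFreeOfNeBot P hP
  have : CharP (𝓞 F ⧸ P) q := (CharP.charP_iff_prime_eq_zero hq).2 (by
    rw [← map_natCast (Ideal.Quotient.mk P), Ideal.Quotient.eq_zero_iff_mem]; exact hqP)
  let gbar : 𝓞 F ⧸ P →+* 𝓞 F ⧸ P := Ideal.Quotient.lift P
    ((Ideal.Quotient.mk P).comp (MulSemiringAction.toRingHom (F ≃ₐ[ℚ] F) (𝓞 F) (r g)))
    fun b hb => Ideal.Quotient.eq_zero_iff_mem.2 (hstable g hg b hb)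
  obtain ⟨n, hn⟩ := exists_eq_pow_char hq gbar
  have h1 : ∀ b : 𝓞 F, r g • b - b ^ q ^ n ∈ P := fun b =>
    Ideal.Quotient.eq.1 (by simpa [gbar] using hn (Ideal.Quotient.mk P b))
  have hfrob : ∀ b : 𝓞 F, r φ • b - b ^ q ∈ P := by
    intro b
    rw [hmem]
    have := frobenius_sub_pow_mem hφ (hint b)
    rw [← hr φ (b : F)] at this
    exact this
  have h2 : ∀ (m : ℕ) (b : 𝓞 F), r (φ ^ m) • b - b ^ q ^ m ∈ P := by
    intro m
    induction m with
    | zero => simp
    | succ m ih =>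
      intro b
      rw [← Ideal.Quotient.eq] at *
      have e1 := ih (r φ • b)
      rw [← Ideal.Quotient.eq] at e1
      rw [pow_succ, map_mul, mul_smul, e1, map_pow, map_pow, Ideal.Quotient.eq.2 (hfrob b), map_pow,
        ← pow_mul, pow_succ' q m]
  -- `φ ^ (-n) g` is inertia at level `F`
  have hd : (φ ^ n)⁻¹ ∈ A.decompositionSubgroup ℚ :=
    inv_mem (pow_mem hφ.mem_decompositionSubgroup n)
  have h3 : ∀ b : 𝓞 F, ((r ((φ ^ n)⁻¹ * g) • b - b : 𝓞 F) : F).1 ∈ A.nonunits := by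
    intro b
    rw [← hmem]
    have h4 : r g • b - r (φ ^ n) • b ∈ P := by
      have := sub_mem (h1 b) (h2 n b)
      simpa using this
    have h5 := hstable _ hd _ h4
    rw [smul_sub, smul_smul, smul_smul, ← map_mul, ← map_mul, inv_mul_cancel, map_one,
      one_smul] at h5
    exact h5
  obtain ⟨σ, hσ, hσF⟩ := exists_mem_inertiaSubgroupIn_extending hq.ne_zero hA F
    (r ((φ ^ n)⁻¹ * g)) h3
  refine ⟨n, σ, hσ, ?_⟩
  rw [IntermediateField.mem_fixingSubgroup_iff]
  intro x hx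
  have hx' : σ x = ((φ ^ n)⁻¹ * g) x := by
    have h := hσF ⟨x, F₀.le_normalClosure hx⟩
    rw [hr] at h
    exact h
  rw [mul_inv_rev, mul_assoc, AlgEquiv.mul_apply, ← hx', ← AlgEquiv.mul_apply, inv_mul_cancel,
    AlgEquiv.one_apply]

end Fermat.Agent.TameInertia
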