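import Mathlib
import Fermat.Agent.TameInertia.Qbar

/-!
# Residually unramified lifts are tamely ramified

If `R` is Artinian local with residue characteristic `p ≠ q` and `ρ : G_ℚ → GL n R` (open kernel)
is residually trivial on inertia at `q`, then `ρ` of inertia is cyclic and Frobenius conjugates it
by the `q`-th power.
-/

set_option autoImplicit false

open Matrix

namespace Fermat.Agent.TameInertia

variable {R : Type*} [CommRing R] {n : Type*} [Fintype n] [DecidableEq n]

/-- If `M ≡ 1` modulo `J` and `p ∈ J`, iterated `p`-th powers converge `J`-adically to `1`. -/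
theorem pow_sub_one_mem {p : ℕ} {J : Ideal R} (hp : (p : R) ∈ J) {M : Matrix n n R}
    (hM : ∀ i j, (M - 1) i j ∈ J) :
    ∀ (k : ℕ) (i j : n), (M ^ p ^ k - 1) i j ∈ J ^ (k + 1) := by
  intro k
  induction k with
  | zero => simpa using hM
  | succ k ih =>
    set X := M ^ p ^ k with hX
    have hXJ : ∀ i j, (X - 1) i j ∈ J := fun i j => Ideal.pow_le_self k.succ_ne_zero (ih i j)
    let f : Matrix n n R →+* Matrix n n (R ⧸ J) := (Ideal.Quotient.mk J).mapMatrix
    have hfX : f X = 1 := by
      rw [← sub_eq_zero, ← map_one f, ← map_sub]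
      ext i j
      exact Ideal.Quotient.eq_zero_iff_mem.2 (hXJ i j)
    have hS : ∀ i j, (∑ l ∈ Finset.range p, X ^ l) i j ∈ J := by
      intro i j
      have h0 : f (∑ l ∈ Finset.range p, X ^ l) = 0 := by
        simp only [map_sum, map_pow, hfX, one_pow, Finset.sum_const, Finset.card_range]
        rw [nsmul_one, ← map_natCast (Matrix.scalar n), ← map_zero (Matrix.scalar n)]
        congr 1
        rw [← map_natCast (Ideal.Quotient.mk J), Ideal.Quotient.eq_zero_iff_mem]
        exact hp
      exact Ideal.Quotient.eq_zero_iff_mem.1 (congrFun₂ h0 i j)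
    intro i j
    rw [pow_succ p k, pow_mul, ← hX, ← mul_geom_sum, Matrix.mul_apply]
    refine sum_mem fun l _ => ?_
    rw [pow_succ J]
    exact Ideal.mul_mem_mul (ih i l) (hS l j)

variable [IsLocalRing R] [IsArtinianRing R]

end Fermat.Agent.TameInertia
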