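import Mathlib
import Fermat.Agent.TameInertia.Residual

/-!
# A single tame generator for an adic representation

For a continuous representation over a local ring, residually trivial on inertia at `q ≠ p`, one
element of inertia generates the image of inertia topologically, and Frobenius conjugates by the
`q`-th power.  This is what turns a lift into a pair of matrices `(Φ, σ)` with `Φ σ = σ ^ q Φ`.
-/

set_option autoImplicit false

open Matrix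

namespace Fermat.Agent.TameInertia

variable {R : Type*} [CommRing R] {n : Type*} [Fintype n] [DecidableEq n]

/-- Reduction of matrices modulo an ideal. -/
def redMat (J : Ideal R) : Matrix n n R →+* Matrix n n (R ⧸ J) :=
  (Ideal.Quotient.mk J).mapMatrix

theorem redMat_eq_iff {J : Ideal R} {M N : Matrix n n R} :
    redMat J M = redMat J N ↔ ∀ a b, (M - N) a b ∈ J := by
  simp [redMat, ← Matrix.ext_iff, Matrix.map_apply, Ideal.Quotient.eq, Matrix.sub_apply]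

theorem redMat_eq_of_le {J J' : Ideal R} (h : J ≤ J') {M N : Matrix n n R}
    (e : redMat J M = redMat J N) : redMat J' M = redMat J' N :=
  redMat_eq_iff.2 fun a b => h (redMat_eq_iff.1 e a b)

/-- In a monoid, `x = x ^ (p * t)` and `x ^ p ^ k = 1` force `x = 1`. -/
theorem eq_one_of_eq_pow_mul {M : Type*} [Monoid M] {x : M} {p t k : ℕ} (h : x = x ^ (p * t))
    (hk : x ^ p ^ k = 1) : x = 1 := by
  have key : ∀ j : ℕ, x = x ^ (p * t) ^ j := by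
    intro j
    induction j with
    | zero => simp
    | succ j ih => rw [pow_succ, pow_mul, ← ih, ← h]
  rw [key k, mul_pow, pow_mul, hk, one_pow]

variable [IsLocalRing R]

/-- **Tame generator.** -/
theorem exists_tame_generator {D : Type*} [Group D]
    (r₀ : D →* (AlgebraicClosure ℚ ≃ₐ[ℚ] AlgebraicClosure ℚ)) (ρ : D →* Matrix n n R)
    (hcont : ∀ k : ℕ, ∃ F₀ : IntermediateField ℚ (AlgebraicClosure ℚ), FiniteDimensional ℚ F₀ ∧
      ∀ d, r₀ d ∈ F₀.fixingSubgroup → ∀ a b, (ρ d - 1) a b ∈ IsLocalRing.maximalIdeal R ^ k)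
    {A : ValuationSubring (AlgebraicClosure ℚ)} {p q : ℕ} (hp : p.Prime)
    (hpR : (p : R) ∈ IsLocalRing.maximalIdeal R) (hq : q.Prime) (hpq : p ≠ q)
    (hA : A.LiesOverPrime q)
    (hres : ∀ d, r₀ d ∈ A.inertiaSubgroupIn ℚ → ∀ a b,
      (ρ d - 1) a b ∈ IsLocalRing.maximalIdeal R) :
    ∃ d₀, r₀ d₀ ∈ A.inertiaSubgroupIn ℚ ∧
      (∀ d, r₀ d ∈ A.inertiaSubgroupIn ℚ → ∀ k : ℕ, ∃ j : ℕ, ∀ a b,
        (ρ d - ρ d₀ ^ j) a b ∈ IsLocalRing.maximalIdeal R ^ k) ∧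
      ∀ φ, A.IsFrobeniusAt (r₀ φ) q → ∀ d, r₀ d ∈ A.inertiaSubgroupIn ℚ → ∀ (k : ℕ) a b,
        (ρ φ * ρ d - ρ d ^ q * ρ φ) a b ∈ IsLocalRing.maximalIdeal R ^ k := by
  set m := IsLocalRing.maximalIdeal R with hm
  have hexp : ∀ d, r₀ d ∈ A.inertiaSubgroupIn ℚ → ∀ k : ℕ,
      redMat (m ^ k) (ρ d) ^ p ^ k = 1 := by
    intro d hd k
    rw [← map_pow, ← map_one (redMat (m ^ k)), redMat_eq_iff]
    intro a b
    exact Ideal.pow_le_pow_right k.le_succ (pow_sub_one_mem hpR (hres d hd) k a b)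
  have level : ∀ k : ℕ, (∃ g, r₀ g ∈ A.inertiaSubgroupIn ℚ ∧
      ∀ d, r₀ d ∈ A.inertiaSubgroupIn ℚ → ∃ j : ℕ,
        redMat (m ^ k) (ρ d) = redMat (m ^ k) (ρ g) ^ j) ∧
      ∀ φ, A.IsFrobeniusAt (r₀ φ) q → ∀ d, r₀ d ∈ A.inertiaSubgroupIn ℚ →
        redMat (m ^ k) (ρ φ * ρ d) = redMat (m ^ k) (ρ d ^ q * ρ φ) := by
    intro k
    let f : D →* (Matrix n n (R ⧸ m ^ k))ˣ :=
      ((redMat (m ^ k)).toMonoidHom.comp ρ).toHomUnits
    have hf : ∀ d, ((f d : (Matrix n n (R ⧸ m ^ k))ˣ) : Matrix n n (R ⧸ m ^ k)) =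
        redMat (m ^ k) (ρ d) := fun d => rfl
    obtain ⟨F₀, hF₀, hF⟩ := hcont k
    obtain ⟨⟨g, hg, hgen⟩, hfrob⟩ := local_tame_inertia r₀ (ρ := f) ⟨F₀, hF₀, fun d hd =>
      Units.ext (by rw [hf, Units.val_one, ← map_one (redMat (m ^ k)), redMat_eq_iff]; exact hF d hd)⟩
      hq hA (Nat.Coprime.pow_left k ((Nat.coprime_primes hp hq).2 hpq)) (fun d hd =>
        Units.ext (by rw [Units.val_pow_eq_pow_val, hf, Units.val_one]; exact hexp d hd k))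
    refine ⟨⟨g, hg, fun d hd => ?_⟩, fun φ hφ d hd => ?_⟩
    · obtain ⟨j, hj⟩ := hgen d hd
      exact ⟨j, by simpa [hf] using congrArg Units.val hj⟩
    · have h := hfrob φ hφ d hd
      rw [mul_inv_eq_iff_eq_mul] at h
      simpa [hf, map_mul, map_pow] using congrArg Units.val h
  have hrel : ∀ φ, A.IsFrobeniusAt (r₀ φ) q → ∀ d, r₀ d ∈ A.inertiaSubgroupIn ℚ →
      ∀ (k : ℕ) a b, (ρ φ * ρ d - ρ d ^ q * ρ φ) a b ∈ m ^ k :=
    fun φ hφ d hd k => redMat_eq_iff.1 ((level k).2 φ hφ d hd)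
  by_cases hall : ∀ d, r₀ d ∈ A.inertiaSubgroupIn ℚ → ∀ k, redMat (m ^ k) (ρ d) = 1
  · refine ⟨1, by simp, fun d hd k => ⟨0, ?_⟩, hrel⟩
    rw [pow_zero, ← redMat_eq_iff, map_one]
    exact hall d hd k
  push Not at hall
  obtain ⟨d₁, hd₁, k₀, hk₀⟩ := hall
  obtain ⟨⟨d₀, hd₀, hgen₀⟩, -⟩ := level k₀
  refine ⟨d₀, hd₀, fun d hd k => ?_, hrel⟩
  suffices h : ∀ k, k₀ ≤ k → ∃ j : ℕ, redMat (m ^ k) (ρ d) = redMat (m ^ k) (ρ d₀) ^ j by
    obtain ⟨j, hj⟩ := h (max k k₀) (le_max_right _ _)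
    refine ⟨j, redMat_eq_iff.1 ?_⟩
    rw [← map_pow] at hj
    exact redMat_eq_of_le (Ideal.pow_le_pow_right (le_max_left _ _)) hj
  have hk₀pos : k₀ ≠ 0 := by
    rintro rfl
    apply hk₀
    rw [← map_one (redMat (m ^ 0)), redMat_eq_iff]
    intro a b
    simp
  intro k hk
  obtain ⟨⟨g, hg, hgen⟩, -⟩ := level k
  obtain ⟨i, hi⟩ := hgen d₀ hd₀
  -- the exponent of `d₀` in terms of the generator `g` is prime to `p`
  have hpi : i.Coprime (p ^ k) := by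
    refine Nat.Coprime.pow_right k ((hp.coprime_iff_not_dvd).2 fun hdvd => hk₀ ?_).symm
    obtain ⟨t, rfl⟩ := hdvd
    obtain ⟨s, hs⟩ := hgen₀ g hg
    have hi' : redMat (m ^ k₀) (ρ d₀) = redMat (m ^ k₀) (ρ g) ^ (p * t) := by
      rw [← map_pow] at hi ⊢
      exact redMat_eq_of_le (Ideal.pow_le_pow_right hk) hi
    have h1 : redMat (m ^ k₀) (ρ d₀) = 1 := by
      refine eq_one_of_eq_pow_mul (t := s * t) ?_ (hexp d₀ hd₀ k₀)
      rw [show p * (s * t) = s * (p * t) by ring, pow_mul, ← hs]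
      exact hi'
    obtain ⟨s', hs'⟩ := hgen₀ d₁ hd₁
    rw [hs', h1, one_pow]
  obtain ⟨j, hj⟩ := hgen d hd
  obtain ⟨i', hi'⟩ : ∃ i' : ℕ, redMat (m ^ k) (ρ g) = redMat (m ^ k) (ρ d₀) ^ i' := by
    obtain ⟨i', -, hi'⟩ := Nat.exists_mul_mod_eq_gcd (n := i) (k := p ^ k)
      (by rw [hpi.gcd_eq_one]; exact Nat.one_lt_pow (by omega) hp.one_lt)
    refine ⟨i', ?_⟩
    rw [hi, ← pow_mul, pow_eq_pow_mod (i * i') (hexp g hg k), hi', hpi.gcd_eq_one, pow_one]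
  exact ⟨i' * j, by rw [pow_mul, ← hi', hj]⟩

/-- The relation `Φ σ = σ ^ q Φ` over a separated ring. -/
theorem frobenius_relation {D : Type*} [Group D]
    [IsHausdorff (IsLocalRing.maximalIdeal R) R] {ρ : D →* Matrix n n R} {φ d : D} {q : ℕ}
    (h : ∀ (k : ℕ) a b, (ρ φ * ρ d - ρ d ^ q * ρ φ) a b ∈ IsLocalRing.maximalIdeal R ^ k) :
    ρ φ * ρ d = ρ d ^ q * ρ φ := by
  rw [← sub_eq_zero]
  ext a b
  refine IsHausdorff.haus ‹_› _ fun k => ?_
  rw [SModEq.zero, smul_eq_mul, Ideal.mul_top]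
  exact h k a b

end Fermat.Agent.TameInertia
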