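import Mathlib
import Fermat.Agent.TameInertia.Frobenius
import Fermat.Agent.BigImage.Unramified

/-!
# The tame presentation of the decomposition group

`σ₀` in inertia at `q` is a tame generator for `p` if it moves the `p`-th roots of `q`.  Then a
representation of the decomposition group which is tame with `p`-power exponent on inertia is
determined by the images of `σ₀` and of a Frobenius element `φ`, and conversely every pair
`(s, Φ)` in a finite group with `s ^ p ^ k = 1` and `Φ s = s ^ q Φ` occurs.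
-/

set_option autoImplicit false

open NumberField
open scoped Pointwise NumberField

noncomputable section

namespace Fermat.Agent.TameInertia

open Fermat.Agent.FreyReducible Fermat.Agent.BigImage Fermat.Agent.MultRed

local notation "Ω" => AlgebraicClosure ℚ
local notation "G_ℚ" => (AlgebraicClosure ℚ) ≃ₐ[ℚ] (AlgebraicClosure ℚ)

local instance isAlgebraicQbar_tp : Algebra.IsAlgebraic ℚ (AlgebraicClosure ℚ) :=
  AlgebraicClosure.isAlgebraic ℚ

variable {A : ValuationSubring Ω} {p q : ℕ}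

/-- Exponents of a primitive root are determined modulo its order. -/
theorem modEq_of_pow_eq {M : Type*} [CommMonoid M] {ω : M} {N a b : ℕ}
    (hω : IsPrimitiveRoot ω N) (hN : N ≠ 0) (h : ω ^ a = ω ^ b) : a ≡ b [MOD N] := by
  rw [pow_eq_pow_mod a hω.pow_eq_one, pow_eq_pow_mod b hω.pow_eq_one] at h
  exact hω.pow_inj (Nat.mod_lt _ (Nat.pos_of_ne_zero hN)) (Nat.mod_lt _ (Nat.pos_of_ne_zero hN)) h

/-- An element of inertia at `A` moving every `p`-th root of `q`. -/
def IsTameGenerator (A : ValuationSubring Ω) (p q : ℕ) (σ₀ : G_ℚ) : Prop :=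
  σ₀ ∈ A.inertiaSubgroupIn ℚ ∧ ∀ y : Ω, y ^ p = (q : Ω) → σ₀ y ≠ y

/-- Tame generators exist. -/
theorem exists_tameGenerator (hp : p.Prime) (hq : q.Prime) (hpq : p ≠ q)
    (hA : A.LiesOverPrime q) : ∃ σ₀, IsTameGenerator A p q σ₀ := by
  obtain ⟨y, hy⟩ := IsAlgClosed.exists_pow_nat_eq (q : Ω) hp.pos
  have hndvd : ¬ q ∣ p := fun h => hpq ((Nat.prime_dvd_prime_iff_eq hq hp).1 h).symm
  have hy0 : y ≠ 0 := fun h => by
    rw [h, zero_pow hp.ne_zero] at hy
    exact Nat.cast_ne_zero.2 hq.ne_zero hy.symm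
  have hratio : ∀ σ ∈ A.inertiaSubgroupIn ℚ, ∀ z : Ω, z ^ p = (q : Ω) →
      σ (z / y) = z / y := fun σ hσ z hz =>
    inertia_root_of_unity hq hA hσ hndvd (by
      rw [div_pow, hz, hy, div_self (Nat.cast_ne_zero.2 hq.ne_zero)])
  obtain ⟨σ₀, hσ₀, hmove⟩ : ∃ σ ∈ A.inertiaSubgroupIn ℚ, σ y ≠ y := by
    by_contra! hall
    have hfin : ({z : Ω | z ^ p = (q : Ω)} : Set Ω).Finite := by
      refine (Polynomial.finite_setOfPred_isRoot
        (Polynomial.X_pow_sub_C_ne_zero hp.pos (q : Ω))).subset fun z hz => ?_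
      simpa [sub_eq_zero] using hz
    obtain ⟨k, hk⟩ := exists_valuation_eq_zpow_of_stable hq hA hfin
      (fun g z hz => by
        show g z ^ p = (q : Ω)
        rw [← map_pow, show z ^ p = (q : Ω) from hz, map_natCast])
      (fun σ hσ z hz => by
        have h := hratio σ hσ z hz
        rw [map_div₀, hall σ hσ] at h
        exact (div_left_inj' hy0).1 h)
      (IntermediateField.subset_adjoin ℚ _ (show y ∈ {z : Ω | z ^ p = (q : Ω)} from hy)) hy0
    have hv := congrArg A.valuation hy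
    rw [map_pow, hk, ← zpow_natCast, ← zpow_mul] at hv
    have hinj := zpow_right_injective₀ (vq_pos (A := A) hq) (vq_lt_one hA).ne
    have h1 : k * (p : ℤ) = 1 := hinj (by simpa using hv)
    have h2 : (p : ℤ) ∣ 1 := ⟨k, by rw [mul_comm]; exact h1.symm⟩
    exact hp.not_dvd_one (Int.natCast_dvd_natCast.1 h2)
  refine ⟨σ₀, hσ₀, fun z hz hfix => hmove ?_⟩
  have h := hratio σ₀ hσ₀ z hz
  rw [map_div₀, hfix, div_eq_mul_inv, div_eq_mul_inv] at h
  refine inv_injective (mul_left_cancel₀ ?_ h)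
  intro h0
  rw [h0, zero_pow hp.ne_zero] at hz
  exact Nat.cast_ne_zero.2 hq.ne_zero hz.symm

/-- The action of `G_ℚ` on the `p`-th roots of `q`. -/
def rootPerm (p q : ℕ) : G_ℚ →* Equiv.Perm {z : Ω // z ^ p = (q : Ω)} where
  toFun σ := σ.toEquiv.subtypeEquiv fun z => by
    constructor
    · intro h
      show σ z ^ p = (q : Ω)
      rw [← map_pow, h, map_natCast]
    · intro h
      apply σ.injective
      rw [map_pow, map_natCast]
      exact h
  map_one' := by ext z; rfl
  map_mul' σ τ := by ext z; rfl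

/-- A tame generator generates the image of inertia of every representation with `p`-power
exponent on inertia. -/
theorem exists_eq_pow_tameGenerator (hp : p.Prime) (hq : q.Prime) (hpq : p ≠ q)
    (hA : A.LiesOverPrime q) {D G : Type*} [Group D] [Group G] (r₀ : D →* G_ℚ) {ρ : D →* G}
    (hopen : ∃ F₀ : IntermediateField ℚ Ω, FiniteDimensional ℚ F₀ ∧
      F₀.fixingSubgroup.comap r₀ ≤ ρ.ker)
    {k : ℕ} (hexp : ∀ d, r₀ d ∈ A.inertiaSubgroupIn ℚ → ρ d ^ p ^ k = 1)
    {d₀ : D} (hd₀ : IsTameGenerator A p q (r₀ d₀))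
    {d : D} (hd : r₀ d ∈ A.inertiaSubgroupIn ℚ) : ∃ j : ℕ, ρ d = ρ d₀ ^ j := by
  obtain ⟨F₀, hF₀, hle⟩ := hopen
  have hfinS : ({z : Ω | z ^ p = (q : Ω)} : Set Ω).Finite :=
    (Polynomial.finite_setOfPred_isRoot
      (Polynomial.X_pow_sub_C_ne_zero hp.pos (q : Ω))).subset fun z hz => by
        simpa [sub_eq_zero] using hz
  have := hfinS.to_subtype
  let L := IntermediateField.adjoin ℚ {z : Ω | z ^ p = (q : Ω)}
  have : FiniteDimensional ℚ L :=
    IntermediateField.finiteDimensional_adjoin fun s _ => Algebra.IsIntegral.isIntegral s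
  have hndvd : ¬ q ∣ p := fun h => hpq ((Nat.prime_dvd_prime_iff_eq hq hp).1 h).symm
  have hq0 : (q : Ω) ≠ 0 := Nat.cast_ne_zero.2 hq.ne_zero
  have hperm : ∀ σ ∈ A.inertiaSubgroupIn ℚ, rootPerm p q σ ^ p = 1 := by
    intro σ hσ
    rw [← map_pow]
    ext ⟨z, hz⟩
    show (σ ^ p) z = z
    have hz0 : z ≠ 0 := fun h => by rw [h, zero_pow hp.ne_zero] at hz; exact hq0 hz.symm
    set μ := σ z / z with hμdef
    have hμ : μ ^ p = 1 := by rw [hμdef, div_pow, ← map_pow, hz, map_natCast, div_self hq0]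
    have hσμ : σ μ = μ := inertia_root_of_unity hq hA hσ hndvd hμ
    have hσz : σ z = μ * z := by rw [hμdef, div_mul_cancel₀ _ hz0]
    have key : ∀ j : ℕ, (σ ^ j) z = μ ^ j * z := by
      intro j
      induction j with
      | zero => simp
      | succ j ih =>
        rw [pow_succ' σ, AlgEquiv.mul_apply, ih, map_mul, map_pow, hσμ, hσz]
        ring
    rw [key, hμ, one_mul]
  let f : D →* G × Equiv.Perm {z : Ω // z ^ p = (q : Ω)} := ρ.prod ((rootPerm p q).comp r₀)
  have hexp' : ∀ x, r₀ x ∈ A.inertiaSubgroupIn ℚ → f x ^ p ^ (k + 1) = 1 := by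
    intro x hx
    refine Prod.ext ?_ ?_
    · show ρ x ^ p ^ (k + 1) = 1
      rw [pow_succ, pow_mul, hexp x hx, one_pow]
    · show rootPerm p q (r₀ x) ^ p ^ (k + 1) = 1
      rw [pow_succ', pow_mul, hperm _ hx, one_pow]
  obtain ⟨⟨g, hg, hgen⟩, -⟩ := local_tame_inertia r₀ (ρ := f)
    ⟨F₀ ⊔ L, IntermediateField.finiteDimensional_sup F₀ L, fun x hx => by
      have hxF := IntermediateField.fixingSubgroup_antitone (le_sup_left (a := F₀) (b := L)) hx
      have hxL := IntermediateField.fixingSubgroup_antitone (le_sup_right (a := F₀) (b := L)) hx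
      rw [IntermediateField.mem_fixingSubgroup_iff] at hxL
      refine Prod.ext (hle (show x ∈ F₀.fixingSubgroup.comap r₀ from hxF)) ?_
      ext ⟨z, hz⟩
      exact hxL z (IntermediateField.subset_adjoin ℚ _ hz)⟩
    hq hA (Nat.Coprime.pow_left (k + 1) ((Nat.coprime_primes hp hq).2 hpq)) hexp'
  obtain ⟨i, hi⟩ := hgen d₀ hd₀.1
  have hpi : i.Coprime (p ^ (k + 1)) := by
    refine Nat.Coprime.pow_right (k + 1) ((hp.coprime_iff_not_dvd).2 fun hdvd => ?_).symm
    obtain ⟨t, rfl⟩ := hdvd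
    obtain ⟨y, hy⟩ := IsAlgClosed.exists_pow_nat_eq (q : Ω) hp.pos
    have h : rootPerm p q (r₀ d₀) = 1 := by
      have h := congrArg Prod.snd hi
      rw [pow_mul] at h
      have h1 : rootPerm p q (r₀ g) ^ p = 1 := hperm _ hg
      simpa [f, h1] using h
    exact hd₀.2 y hy (congrArg (fun e : Equiv.Perm {z : Ω // z ^ p = (q : Ω)} =>
      ((e ⟨y, hy⟩ : {z : Ω // z ^ p = (q : Ω)}) : Ω)) h)
  obtain ⟨i', -, hi'⟩ := Nat.exists_mul_mod_eq_gcd (n := i) (k := p ^ (k + 1))
    (by rw [hpi.gcd_eq_one]; exact Nat.one_lt_pow (by omega) hp.one_lt)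
  have hg' : f g = f d₀ ^ i' := by
    rw [hi, ← pow_mul, pow_eq_pow_mod (i * i') (hexp' g hg), hi', hpi.gcd_eq_one, pow_one]
  obtain ⟨j, hj⟩ := hgen d hd
  refine ⟨i' * j, ?_⟩
  rw [hg', ← pow_mul] at hj
  exact congrArg Prod.fst hj

end Fermat.Agent.TameInertia
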